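import Mathlib
import Fermat.Prelude.Def_CuspForm_IntegralLattice
import Fermat.Prelude.Def_FormalHecke_Eigensystem
import Fermat.Prelude.Def_ModularForm_EisensteinChiNegThree
import Fermat.Prelude.Def_FLTPrelim_Modularity
import Fermat.Prelude.Def_CuspForm_HeckeLocal
import Fermat.Prelude.Thm_ModularFormClass_qCoeff_heckeT
import Fermat.Prelude.Thm_ModularFormClass_qCoeff_heckeU

set_option autoImplicit false

open CuspForm EisensteinWeightOne CongruenceSubgroup ModularFormClass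

namespace Fermat.Agent.S49

open P2MW.S_CuspForm_intLattice_fg.W3WsD (hΓ qCoeff_add qCoeff_zsmul mem_intLattice_iff
  trunc trunc_injective)

variable {N : ℕ} {k : ℤ}

theorem qCoeff_smul' (c : ℂ) (f : CuspForm (Gamma0 N) k) (n : ℕ) :
    qCoeff ⇑(c • f) n = c * qCoeff ⇑f n := by
  have h1 : ⇑(c • f) = c • ⇑f := by
    ext z
    simp
  simp only [qCoeff, h1]
  rw [ModularForm.qExpansion_smul one_pos (hΓ N) c f]
  simp

theorem qCoeff_sub' (f g : CuspForm (Gamma0 N) k) (n : ℕ) :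
    qCoeff ⇑(f - g) n = qCoeff ⇑f n - qCoeff ⇑g n := by
  have : f - g = f + (-1 : ℂ) • g := by
    rw [neg_smul, one_smul, sub_eq_add_neg]
  rw [this, qCoeff_add, qCoeff_smul']
  ring

theorem eq_zero_of_qCoeff [NeZero N] (f : CuspForm (Gamma0 N) k) (h : ∀ n, qCoeff ⇑f n = 0) :
    f = 0 := by
  apply trunc_injective N k
  rw [map_zero]
  funext i
  exact h i

theorem qCoeff_heckeTLin {p : ℕ} (hp : p.Prime) (hpN : ¬ p ∣ N) (f : CuspForm (Gamma0 N) k)
    (n : ℕ) : qCoeff ⇑(heckeTLin k hp hpN f) n =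
      qCoeff ⇑f (p * n) + (p : ℂ) ^ (k - 1) * (if p ∣ n then qCoeff ⇑f (n / p) else 0) := by
  rw [coe_heckeTLin_apply, ModularFormClass.qCoeff_heckeT f (hΓ N) hp.ne_zero n,
    ModularForm.coeffHeckeT_apply, mul_comm n p]
  split_ifs <;> simp

theorem qCoeff_heckeULin [NeZero N] {p : ℕ} (hp : p.Prime) (hpN : p ∣ N)
    (f : CuspForm (Gamma0 N) k) (n : ℕ) :
    qCoeff ⇑(heckeULin k hpN f) n = qCoeff ⇑f (p * n) := by
  rw [coe_heckeULin_apply, ModularFormClass.qCoeff_heckeU f (hΓ N) hp.ne_zero n,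
    ModularForm.coeffHeckeU_apply, mul_comm n p]

theorem qCoeff_zero_eq_zero (f : CuspForm (Gamma0 N) k) : qCoeff ⇑f 0 = 0 :=
  CuspFormClass.qExpansion_coeff_zero f one_pos (hΓ N)

theorem hasIntegralStructure_of_basis (h : CuspForm.HasIntegralBasis N) :
    CuspForm.HasIntegralStructure N 2 := by
  unfold CuspForm.HasIntegralStructure
  rw [eq_top_iff, ← h]
  apply Submodule.span_mono
  intro f hf
  apply Submodule.subset_span
  intro n
  obtain ⟨m, hm⟩ := Subring.mem_bot.mp (hf n)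
  exact ⟨m, hm.symm⟩

theorem finiteDimensional_of_structure [NeZero N] (h : CuspForm.HasIntegralStructure N 2) :
    FiniteDimensional ℂ (CuspForm (Gamma0 N) 2) := by
  obtain ⟨s, hs⟩ := CuspForm.intLattice_fg N 2
  refine ⟨⟨s, ?_⟩⟩
  rw [eq_top_iff, ← h, Submodule.span_le, ← hs]
  intro f hf
  exact Submodule.span_subset_span ℤ ℂ _ hf

theorem exists_three_smul (h : CuspForm (Gamma0 N) 2)
    (hh : ∀ n, ∃ m : ℤ, qCoeff ⇑h n = 3 * (m : ℂ)) :
    ∃ g ∈ CuspForm.intLattice N 2, h = (3 : ℤ) • g := by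
  refine ⟨(3⁻¹ : ℂ) • h, ?_, ?_⟩
  · rw [mem_intLattice_iff]
    intro n
    obtain ⟨m, hm⟩ := hh n
    refine ⟨m, ?_⟩
    rw [qCoeff_smul', hm]
    field_simp
  · rw [← Int.cast_smul_eq_zsmul ℂ, smul_smul]
    norm_num

theorem bridgeProduct_coeff_sub (a : ℕ → ℤ) (n : ℕ) :
    (3 : ℤ) ∣ (bridgeProduct a).coeff n - a n := by
  have h1 : e1Chi3In ℤ = 1 + PowerSeries.C (3 : ℤ) *
      PowerSeries.mk (fun n => if n = 0 then 0 else 2 * sigmaChi n) := by
    ext m
    simp only [e1Chi3In, e1Chi3, PowerSeries.coeff_map, PowerSeries.coeff_mk, map_add,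
      PowerSeries.coeff_C_mul, PowerSeries.coeff_one]
    split_ifs <;> simp
    ring
  unfold bridgeProduct
  rw [h1, mul_add, mul_one, map_add, PowerSeries.coeff_mk, mul_left_comm,
    PowerSeries.coeff_C_mul]
  simp

theorem three_dvd_sub_chi (ℓ : ℕ) : (3 : ℤ) ∣ (ℓ : ℤ) - chiNegThree ℓ := by
  unfold chiNegThree
  split_ifs <;> omega

end Fermat.Agent.S49
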