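import Mathlib

set_option autoImplicit false

namespace Fermat.Agent.S49

/-- A commuting family of endomorphisms stabilising a nonzero subspace of a finite dimensional
space over an algebraically closed field has a common eigenvector in that subspace. -/
theorem exists_common_eigenvector {K V : Type*} [Field K] [IsAlgClosed K] [AddCommGroup V]
    [Module K V] [FiniteDimensional K V] (A : Set (Module.End K V))
    (hA : ∀ a ∈ A, ∀ b ∈ A, Commute a b) :
    ∀ (n : ℕ) (W : Submodule K V), Module.finrank K W = n → W ≠ ⊥ →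
      (∀ a ∈ A, ∀ w ∈ W, a w ∈ W) →
      ∃ v ∈ W, v ≠ 0 ∧ ∀ a ∈ A, ∃ c : K, a v = c • v := by
  intro n
  induction n using Nat.strong_induction_on with
  | _ n ih =>
    intro W hn hW hstab
    by_cases hsc : ∀ a ∈ A, ∃ c : K, ∀ w ∈ W, a w = c • w
    · obtain ⟨v, hv, hv0⟩ := Submodule.exists_mem_ne_zero_of_ne_bot hW
      exact ⟨v, hv, hv0, fun a ha => (hsc a ha).imp fun c hc => hc v hv⟩
    · push Not at hsc
      obtain ⟨a, ha, hna⟩ := hsc
      have : Nontrivial W := Submodule.nontrivial_iff_ne_bot.mpr hW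
      obtain ⟨c, hc⟩ := Module.End.exists_eigenvalue (a.restrict (hstab a ha))
      obtain ⟨w, hw⟩ := hc.exists_hasEigenvector
      set W' : Submodule K V := W ⊓ LinearMap.ker (a - c • (1 : Module.End K V)) with hW'
      have hmem : ∀ x, x ∈ W' ↔ x ∈ W ∧ a x = c • x := by
        intro x
        simp [hW', LinearMap.mem_ker, sub_eq_zero]
      have hwW' : (w : V) ∈ W' := by
        rw [hmem]
        refine ⟨w.2, ?_⟩
        have := hw.apply_eq_smul
        simpa using congrArg Subtype.val this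
      have hW'ne : W' ≠ ⊥ := by
        intro h
        rw [h, Submodule.mem_bot] at hwW'
        exact hw.2 (Subtype.ext hwW')
      have hlt : W' < W := by
        refine lt_of_le_of_ne inf_le_left ?_
        intro h
        obtain ⟨x, hx, hxne⟩ := hna c
        rw [← h] at hx
        exact hxne ((hmem x).1 hx).2
      have hfr : Module.finrank K W' < n := hn ▸ Submodule.finrank_lt_finrank_of_lt hlt
      have hstab' : ∀ b ∈ A, ∀ x ∈ W', b x ∈ W' := by
        intro b hb x hx
        rw [hmem] at hx ⊢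
        refine ⟨hstab b hb x hx.1, ?_⟩
        have hcomm : a (b x) = b (a x) := by
          have := hA a ha b hb
          exact LinearMap.congr_fun this.eq x
        rw [hcomm, hx.2, map_smul]
      obtain ⟨v, hv, hv0, hev⟩ := ih _ hfr W' rfl hW'ne hstab'
      exact ⟨v, hlt.le hv, hv0, hev⟩

open Module in
/-- Deligne–Serre lifting in the form we need. -/
theorem exists_eigen_lift {V : Type*} [AddCommGroup V] [Module ℂ V] [FiniteDimensional ℂ V]
    {T : Type*} [CommRing T] [Module.Finite ℤ T] (ι : T →+* Module.End ℂ V)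
    (hι : Function.Injective ι) (𝔪 : Ideal T) [h𝔪 : 𝔪.IsMaximal] :
    ∃ (v : V) (lam : T →+* integralClosure ℤ ℂ) (𝔪' : Ideal (integralClosure ℤ ℂ)),
      v ≠ 0 ∧ (∀ t, ι t v = ((lam t : integralClosure ℤ ℂ) : ℂ) • v) ∧ 𝔪'.IsMaximal ∧
        𝔪'.comap lam = 𝔪 := by
  classical
  have : IsNoetherianRing T := IsNoetherianRing.of_finite ℤ T
  obtain ⟨𝔭, h𝔭min, h𝔭le⟩ := Ideal.exists_minimalPrimes_le (I := (⊥ : Ideal T)) (J := 𝔪) bot_le
  have hann : Module.annihilator T T = ⊥ := by
    rw [eq_bot_iff]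
    intro t ht
    have := Module.mem_annihilator.mp ht 1
    simpa using this
  have hass : 𝔭 ∈ associatedPrimes T T := by
    apply Module.associatedPrimes.minimalPrimes_annihilator_subset_associatedPrimes
    rw [hann]
    exact h𝔭min
  obtain ⟨h𝔭prime, s, hs⟩ := isAssociatedPrime_iff.mp hass
  have hmem𝔭 : ∀ t, t ∈ 𝔭 ↔ t * s = 0 := by
    intro t
    rw [hs, Submodule.mem_colon_singleton, Submodule.mem_bot, smul_eq_mul]
  have hs0 : s ≠ 0 := by
    intro h0
    apply h𝔭prime.ne_top
    rw [Ideal.eq_top_iff_one, hmem𝔭, h0, mul_zero]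
  have hιs : ι s ≠ 0 := fun h => hs0 (hι (h.trans (map_zero ι).symm))
  have hW : LinearMap.range (ι s) ≠ ⊥ := by
    rw [Ne, LinearMap.range_eq_bot]
    exact hιs
  obtain ⟨v, hvW, hv0, hev⟩ := exists_common_eigenvector (Set.range ι)
    (by
      rintro _ ⟨a, rfl⟩ _ ⟨b, rfl⟩
      show ι a * ι b = ι b * ι a
      rw [← map_mul, ← map_mul, mul_comm]) _ (LinearMap.range (ι s)) rfl hW
    (by
      rintro _ ⟨a, rfl⟩ _ ⟨u, rfl⟩
      refine ⟨ι a u, ?_⟩
      have : ι s * ι a = ι a * ι s := by rw [← map_mul, ← map_mul, mul_comm]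
      exact LinearMap.congr_fun this u)
  have hev' : ∀ t : T, ∃ c : ℂ, ι t v = c • v := fun t => hev (ι t) ⟨t, rfl⟩
  choose c hc using hev'
  have hinj : ∀ x y : ℂ, x • v = y • v → x = y := fun x y h => smul_left_injective ℂ hv0 h
  let lam0 : T →+* ℂ :=
    { toFun := c
      map_one' := hinj _ _ (by rw [← hc, map_one, one_smul, Module.End.one_apply])
      map_mul' := fun a b => hinj _ _ (by
        rw [← hc, map_mul, Module.End.mul_apply, hc b, map_smul, hc a, smul_smul, mul_comm])
      map_zero' := hinj _ _ (by rw [← hc, map_zero, zero_smul, LinearMap.zero_apply])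
      map_add' := fun a b => hinj _ _ (by
        rw [← hc, map_add, LinearMap.add_apply, hc a, hc b, add_smul]) }
  have hint : ∀ t : T, lam0 t ∈ integralClosure ℤ ℂ := by
    intro t
    have h1 : IsIntegral ℤ t := Algebra.IsIntegral.isIntegral t
    exact h1.map lam0.toIntAlgHom
  let lam : T →+* integralClosure ℤ ℂ := lam0.codRestrict (integralClosure ℤ ℂ) hint
  have hlam : ∀ t, ((lam t : integralClosure ℤ ℂ) : ℂ) = c t := fun t => rfl
  have hker_ge : 𝔭 ≤ RingHom.ker lam := by
    intro t ht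
    rw [RingHom.mem_ker]
    apply Subtype.ext
    rw [hlam]
    obtain ⟨u, rfl⟩ := hvW
    apply hinj
    rw [← hc]
    have h1 : ι t * ι s = 0 := by rw [← map_mul, (hmem𝔭 t).1 ht, map_zero]
    have h2 := LinearMap.congr_fun h1 u
    simpa using h2
  have hkerprime : (RingHom.ker lam).IsPrime := RingHom.ker_isPrime lam
  have hker_comap : (RingHom.ker lam).comap (algebraMap ℤ T) = ⊥ := by
    rw [eq_bot_iff]
    intro n hn
    rw [Ideal.mem_comap, RingHom.mem_ker] at hn
    have h3 : ((lam (algebraMap ℤ T n) : integralClosure ℤ ℂ) : ℂ) = 0 := by rw [hn]; rfl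
    have h4 : ((lam (algebraMap ℤ T n) : integralClosure ℤ ℂ) : ℂ) = (n : ℂ) := by
      simp
    rw [h4] at h3
    simpa using h3
  have hker_le : RingHom.ker lam ≤ 𝔭 := by
    by_contra hnot
    obtain ⟨x, hx, hx𝔭⟩ := SetLike.not_le_iff_exists.mp hnot
    have hlt := Ideal.comap_lt_comap_of_integral_mem_sdiff (R := ℤ) hker_ge
      (x := x) ⟨hx, hx𝔭⟩ (Algebra.IsIntegral.isIntegral x)
    rw [hker_comap] at hlt
    exact not_lt_bot hlt
  letI : Algebra T (integralClosure ℤ ℂ) := lam.toAlgebra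
  have : Algebra.IsIntegral T (integralClosure ℤ ℂ) := Algebra.IsIntegral.tower_top ℤ
  obtain ⟨𝔪', h𝔪'max, h𝔪'⟩ := Ideal.exists_ideal_over_maximal_of_isIntegral
    (S := integralClosure ℤ ℂ) 𝔪 (hker_le.trans h𝔭le)
  exact ⟨v, lam, 𝔪', hv0, fun t => hc t, h𝔪'max, h𝔪'⟩

end Fermat.Agent.S49
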