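import Mathlib
import Fermat.Prelude.Def_FormalHecke_Eigensystem

set_option autoImplicit false

namespace Fermat.Agent.S49

variable {R : Type*} [CommRing R]

/-- Coprime multiplicativity of a formal Hecke eigensystem. -/
theorem eigensystem_mul_of_coprime {e a : ℕ → R} (h : FormalHecke.IsEigensystem e a) :
    ∀ m n : ℕ, m.Coprime n → a (m * n) = a m * a n := by
  obtain ⟨h1, hrec⟩ := h
  intro m
  induction m using Nat.strong_induction_on with
  | _ m ih =>
    intro n hmn
    rcases Nat.eq_zero_or_pos m with rfl | hmpos
    · have hn : n = 1 := by simpa using hmn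
      subst hn
      simp [h1]
    rcases Nat.lt_or_ge 1 m with hm1 | hm1
    swap
    · have : m = 1 := by omega
      subst this
      simp [h1]
    -- m > 1
    set p := m.minFac with hp
    have hpp : p.Prime := Nat.minFac_prime (by omega)
    obtain ⟨m', hm'⟩ : p ∣ m := Nat.minFac_dvd m
    have hm'pos : 0 < m' := by
      rcases Nat.eq_zero_or_pos m' with h0 | h0
      · rw [h0] at hm'; omega
      · exact h0
    have hm'lt : m' < m := by
      rw [hm']
      exact lt_mul_of_one_lt_left hm'pos hpp.one_lt
    have hcop' : m'.Coprime n := Nat.Coprime.coprime_dvd_left ⟨p, by rw [hm', mul_comm]⟩ hmn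
    have hpn : ¬ p ∣ n := by
      intro hpn
      have : p ∣ Nat.gcd m n := Nat.dvd_gcd (Nat.minFac_dvd m) hpn
      rw [hmn] at this
      exact hpp.one_lt.ne' (Nat.dvd_one.mp this)
    have e1 := hrec p hpp (m' * n)
    have e2 := hrec p hpp m'
    have hmn' : m * n = p * (m' * n) := by rw [hm', mul_assoc]
    by_cases hpm' : p ∣ m'
    · obtain ⟨m'', hm''⟩ := hpm'
      have hm''lt : m'' < m := by
        have : m'' ≤ m' := by
          rw [hm'']
          exact Nat.le_mul_of_pos_left _ hpp.pos
        omega
      have hcop'' : m''.Coprime n :=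
        Nat.Coprime.coprime_dvd_left ⟨p, by rw [hm'', mul_comm]⟩ hcop'
      have hd1 : p ∣ m' * n := Dvd.dvd.mul_right ⟨m'', hm''⟩ n
      have hq1 : m' * n / p = m'' * n := by
        rw [hm'', mul_assoc, Nat.mul_div_cancel_left _ hpp.pos]
      have hq2 : m' / p = m'' := by
        rw [hm'', Nat.mul_div_cancel_left _ hpp.pos]
      rw [if_pos hd1, hq1, ih m' hm'lt n hcop', ih m'' hm''lt n hcop''] at e1
      rw [if_pos ⟨m'', hm''⟩, hq2] at e2
      rw [hmn']
      have e3 : a m = a p * a m' - e p * a m'' := by
        rw [hm']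
        linear_combination e2
      rw [e3]
      linear_combination e1
    · have hd1 : ¬ p ∣ m' * n := by
        intro hd
        rcases (Nat.Prime.dvd_mul hpp).mp hd with h' | h'
        · exact hpm' h'
        · exact hpn h'
      rw [if_neg hd1, ih m' hm'lt n hcop'] at e1
      rw [if_neg hpm'] at e2
      rw [hmn']
      have e3 : a m = a p * a m' := by
        rw [hm']
        linear_combination e2
      rw [e3]
      linear_combination e1

/-- Prime power recursion of a formal Hecke eigensystem. -/
theorem eigensystem_prime_pow {e a : ℕ → R} (h : FormalHecke.IsEigensystem e a)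
    (p r : ℕ) (hp : p.Prime) :
    a (p ^ (r + 2)) = a p * a (p ^ (r + 1)) - e p * a (p ^ r) := by
  have e1 := h.2 p hp (p ^ (r + 1))
  have hd : p ∣ p ^ (r + 1) := dvd_pow_self p (by omega)
  have hq : p ^ (r + 1) / p = p ^ r := by
    rw [pow_succ, Nat.mul_div_cancel _ hp.pos]
  rw [if_pos hd, hq] at e1
  have : p ^ (r + 2) = p * p ^ (r + 1) := by ring
  rw [this]
  linear_combination e1

/-- If the "first coefficient" of a solution of the Hecke recursion vanishes, all positive
coefficients vanish. -/
theorem eigen_rec_eq_zero {e lam a : ℕ → R}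
    (hrec : ∀ ℓ : ℕ, ℓ.Prime → ∀ n : ℕ,
      a (ℓ * n) + e ℓ * (if ℓ ∣ n then a (n / ℓ) else 0) = lam ℓ * a n)
    (h1 : a 1 = 0) : ∀ n : ℕ, 0 < n → a n = 0 := by
  intro n
  induction n using Nat.strong_induction_on with
  | _ n ih =>
    intro hn
    rcases Nat.lt_or_ge 1 n with hn1 | hn1
    swap
    · have : n = 1 := by omega
      subst this
      exact h1
    set p := n.minFac with hp
    have hpp : p.Prime := Nat.minFac_prime (by omega)
    obtain ⟨m, hm⟩ : p ∣ n := Nat.minFac_dvd n
    have hmpos : 0 < m := by
      rcases Nat.eq_zero_or_pos m with h0 | h0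
      · rw [h0] at hm; omega
      · exact h0
    have hmlt : m < n := by
      rw [hm]
      exact lt_mul_of_one_lt_left hmpos hpp.one_lt
    have e1 := hrec p hpp m
    rw [ih m hmlt hmpos] at e1
    by_cases hpm : p ∣ m
    · have hq : 0 < m / p := Nat.div_pos (Nat.le_of_dvd hmpos hpm) hpp.pos
      have hqlt : m / p < n := lt_of_le_of_lt (Nat.div_le_self m p) hmlt
      rw [if_pos hpm, ih _ hqlt hq] at e1
      rw [hm]
      linear_combination e1
    · rw [if_neg hpm] at e1
      rw [hm]
      linear_combination e1

end Fermat.Agent.S49
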